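import Mathlib

/-!
# Row LT, tower T6, station T6.20x (helper323), OFF-MAIN: SMOOTH PARAMETRIC INTEGRALS
# (MATHLIB ONLY)

    contDiff_paramIntegral323 :
      `t ↦ ∫_{y ∈ K} Ψ (s y, t) dμ(y)` is `C^∞`

for a compact set `K` of a topological measure space `Y`, a CONTINUOUS map `s : Y → S` into a
normed space and a `C^∞` function `Ψ : S × E → G` (`E` finite-dimensional).  Induction on the
order of differentiability, for all target spaces; derivation under the integral
(`hasFDerivAt_integral_of_dominated_of_fderiv_le`).  No hole, nothing assumed.  ADDITIVE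
(suffix `323`).
-/

set_option autoImplicit false

open MeasureTheory Set
open scoped ContDiff Topology

noncomputable section

namespace Fermat.Agent.LT.T6.H323

section ParamInt

variable {S : Type} [NormedAddCommGroup S] [NormedSpace ℝ S]
  {E : Type} [NormedAddCommGroup E] [NormedSpace ℝ E]

/-- The partial derivative in the second variable. -/
def dSnd323 {G : Type} [NormedAddCommGroup G] [NormedSpace ℝ G] (Ψ : S × E → G) :
    S × E → (E →L[ℝ] G) :=
  fun p => (fderiv ℝ Ψ p).comp (ContinuousLinearMap.inr ℝ S E)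

theorem contDiff_dSnd323 {G : Type} [NormedAddCommGroup G] [NormedSpace ℝ G] {Ψ : S × E → G}
    (hΨ : ContDiff ℝ ∞ Ψ) : ContDiff ℝ ∞ (dSnd323 Ψ) := by
  have h1 : ContDiff ℝ ∞ (fderiv ℝ Ψ) := hΨ.fderiv_right (by simp)
  exact h1.clm_comp contDiff_const

theorem hasFDerivAt_snd323 {G : Type} [NormedAddCommGroup G] [NormedSpace ℝ G] {Ψ : S × E → G}
    (hΨ : ContDiff ℝ ∞ Ψ) (a : S) (t : E) :
    HasFDerivAt (fun t' : E => Ψ (a, t')) (dSnd323 Ψ (a, t)) t := by
  have h1 : HasFDerivAt Ψ (fderiv ℝ Ψ (a, t)) (a, t) :=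
    ((hΨ.differentiable (by simp)) (a, t)).hasFDerivAt
  exact h1.comp t (hasFDerivAt_prodMk_right a t)

variable {Y : Type} [TopologicalSpace Y] [T2Space Y] [MeasurableSpace Y] [OpensMeasurableSpace Y]
  (μ : Measure Y) [IsFiniteMeasureOnCompacts μ] {K : Set Y} [FiniteDimensional ℝ E]

theorem hasFDerivAt_paramIntegral323 (hK : IsCompact K) {s : Y → S} (hs : Continuous s)
    {G : Type} [NormedAddCommGroup G] [NormedSpace ℝ G] [SecondCountableTopology G]
    {Ψ : S × E → G} (hΨ : ContDiff ℝ ∞ Ψ) (t₀ : E) :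
    HasFDerivAt (fun t : E => ∫ y in K, Ψ (s y, t) ∂μ)
      (∫ y in K, dSnd323 Ψ (s y, t₀) ∂μ) t₀ := by
  have hKm : MeasurableSet K := hK.measurableSet
  have hΨc : Continuous Ψ := hΨ.continuous
  have hdc : Continuous (dSnd323 Ψ) := (contDiff_dSnd323 hΨ).continuous
  -- the bound
  have hcomp : IsCompact (K ×ˢ Metric.closedBall t₀ 1) :=
    hK.prod (isCompact_closedBall t₀ 1)
  obtain ⟨C, hC⟩ := hcomp.exists_bound_of_continuousOn
    (f := fun q : Y × E => dSnd323 Ψ (s q.1, q.2))
    (hdc.comp ((hs.comp continuous_fst).prodMk continuous_snd)).continuousOn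
  refine hasFDerivAt_integral_of_dominated_of_fderiv_le (μ := μ.restrict K)
    (F := fun (t : E) (y : Y) => Ψ (s y, t))
    (F' := fun (t : E) (y : Y) => dSnd323 Ψ (s y, t)) (bound := fun _ => C)
    (s := Metric.closedBall t₀ 1) (Metric.closedBall_mem_nhds t₀ one_pos) ?_ ?_ ?_ ?_ ?_ ?_
  · refine Filter.Eventually.of_forall fun t => ?_
    exact ContinuousOn.aestronglyMeasurable_of_isCompact
      (hΨc.comp (hs.prodMk continuous_const)).continuousOn hK hKm
  · exact ContinuousOn.integrableOn_compact hK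
      (hΨc.comp (hs.prodMk continuous_const)).continuousOn
  · exact ContinuousOn.aestronglyMeasurable_of_isCompact
      (hdc.comp (hs.prodMk continuous_const)).continuousOn hK hKm
  · refine ae_restrict_of_forall_mem hKm fun y hy t ht => ?_
    exact hC (y, t) ⟨hy, ht⟩
  · exact integrable_const_iff.2 (Or.inr ⟨by
      rw [Measure.restrict_apply_univ]; exact hK.measure_lt_top⟩)
  · refine Filter.Eventually.of_forall fun y t _ => ?_
    exact hasFDerivAt_snd323 hΨ (s y) t

/-- **SMOOTH PARAMETRIC INTEGRALS.** -/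
theorem contDiff_paramIntegral_nat323 (hK : IsCompact K) {s : Y → S} (hs : Continuous s)
    (n : ℕ) : ∀ (G : Type) [NormedAddCommGroup G] [NormedSpace ℝ G] [SecondCountableTopology G]
      (Ψ : S × E → G), ContDiff ℝ ∞ Ψ →
      ContDiff ℝ n (fun t : E => ∫ y in K, Ψ (s y, t) ∂μ) := by
  induction n with
  | zero =>
    intro G _ _ _ Ψ hΨ
    exact contDiff_zero.2 (continuous_iff_continuousAt.2 fun t =>
      (hasFDerivAt_paramIntegral323 μ hK hs hΨ t).continuousAt)
  | succ n ih =>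
    intro G _ _ _ Ψ hΨ
    have hd : ∀ t₀ : E, HasFDerivAt (fun t : E => ∫ y in K, Ψ (s y, t) ∂μ)
        (∫ y in K, dSnd323 Ψ (s y, t₀) ∂μ) t₀ := hasFDerivAt_paramIntegral323 μ hK hs hΨ
    have hfd : fderiv ℝ (fun t : E => ∫ y in K, Ψ (s y, t) ∂μ)
        = fun t : E => ∫ y in K, dSnd323 Ψ (s y, t) ∂μ := funext fun t => (hd t).fderiv
    have hcast : ((n + 1 : ℕ) : WithTop ℕ∞) = (n : WithTop ℕ∞) + 1 := by norm_cast
    rw [hcast, contDiff_succ_iff_fderiv]
    refine ⟨fun t => (hd t).differentiableAt, ?_, ?_⟩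
    · intro h
      exact absurd h (by exact_mod_cast WithTop.coe_ne_top)
    · rw [hfd]
      exact ih (E →L[ℝ] G) (dSnd323 Ψ) (contDiff_dSnd323 hΨ)

/-- **SMOOTH PARAMETRIC INTEGRALS.** -/
theorem contDiff_paramIntegral323 (hK : IsCompact K) {s : Y → S} (hs : Continuous s)
    {G : Type} [NormedAddCommGroup G] [NormedSpace ℝ G] [SecondCountableTopology G]
    {Ψ : S × E → G} (hΨ : ContDiff ℝ ∞ Ψ) :
    ContDiff ℝ ∞ (fun t : E => ∫ y in K, Ψ (s y, t) ∂μ) :=
  contDiff_infty.2 fun n => contDiff_paramIntegral_nat323 μ hK hs n G Ψ hΨ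

end ParamInt

end Fermat.Agent.LT.T6.H323

end
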