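import Mathlib
import Fermat.Agent.LT.T6.H323.Conv.ParamInt

/-!
# Row LT, tower T6, station T6.20x (helper323), OFF-MAIN: SMOOTHNESS OF CONVOLUTIONS ON `GL₂(𝕂)`
# (`𝕂 = ℝ, ℂ`; MATHLIB ONLY)

* `ext323 ψ` : the extension by zero of `ψ : GL₂(𝕂) → ℂ` to the matrices.
* `contDiff_ext323` : if `ψ` has compact support and is smooth along all smooth families
  (the field `smooth` of `T6.IsArchTestR`, `T6.IsArchTestC`), its extension by zero is `C^∞` on
  the real vector space of the matrices (bump chart at the invertible matrices, compact support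
  at the others).
* `convExt323 μ φ ψ` : `Z ↦ ∫_{supp φ} φ(y) ψ~(y⁻¹ Z) dμ(y)` on the matrices; `contDiff_convExt323`
  (smooth parametric integrals, `ParamInt.lean`); `conv_eq_convExt323`.
* `smooth_conv323` : the convolution is smooth along all smooth families.
No hole, nothing assumed.  ADDITIVE (suffix `323`).
-/

set_option autoImplicit false

open MeasureTheory Set
open scoped ContDiff Topology Matrix

noncomputable section

namespace Fermat.Agent.LT.T6.H323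

attribute [local instance] Matrix.normedAddCommGroup Matrix.normedSpace

variable {𝕂 : Type} [RCLike 𝕂]

/-- The extension by zero to the matrices. -/
def ext323 (ψ : GL (Fin 2) 𝕂 → ℂ) (X : Matrix (Fin 2) (Fin 2) 𝕂) : ℂ :=
  if h : X.det ≠ 0 then ψ (Matrix.GeneralLinearGroup.mkOfDetNeZero X h) else 0

theorem det_coe_ne_zero323 (g : GL (Fin 2) 𝕂) : (g : Matrix (Fin 2) (Fin 2) 𝕂).det ≠ 0 := by
  have := (Matrix.GeneralLinearGroup.det g).ne_zero
  simpa using this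

theorem ext_coe323 (ψ : GL (Fin 2) 𝕂 → ℂ) (g : GL (Fin 2) 𝕂) :
    ext323 ψ (g : Matrix (Fin 2) (Fin 2) 𝕂) = ψ g := by
  unfold ext323
  rw [dif_pos (det_coe_ne_zero323 g)]
  congr 1
  exact Units.ext rfl

theorem ext_of_det323 (ψ : GL (Fin 2) 𝕂 → ℂ) {X : Matrix (Fin 2) (Fin 2) 𝕂} (h : X.det ≠ 0) :
    ext323 ψ X = ψ (Matrix.GeneralLinearGroup.mkOfDetNeZero X h) := by
  unfold ext323
  rw [dif_pos h]

theorem continuous_det323 : Continuous fun X : Matrix (Fin 2) (Fin 2) 𝕂 => X.det :=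
  continuous_id.matrix_det

theorem contDiff_entry323 {E : Type} [NormedAddCommGroup E] [NormedSpace ℝ E]
    {Φ : E → Matrix (Fin 2) (Fin 2) 𝕂} (hΦ : ContDiff ℝ ∞ Φ) (i j : Fin 2) :
    ContDiff ℝ ∞ fun t => Φ t i j := by
  have h1 : ContDiff ℝ ∞ fun t => (Φ t) i := (contDiff_pi (Φ := Φ)).1 hΦ i
  exact (contDiff_pi (Φ := fun t => (Φ t) i)).1 h1 j

theorem contDiff_of_entry323 {E : Type} [NormedAddCommGroup E] [NormedSpace ℝ E]
    {Φ : E → Matrix (Fin 2) (Fin 2) 𝕂} (hΦ : ∀ i j : Fin 2, ContDiff ℝ ∞ fun t => Φ t i j) :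
    ContDiff ℝ ∞ Φ := by
  refine (contDiff_pi (Φ := Φ)).2 fun i => ?_
  exact (contDiff_pi (Φ := fun t => (Φ t) i)).2 fun j => hΦ i j

/-- The product of two smooth families of matrices is smooth. -/
theorem contDiff_matMul323 {E : Type} [NormedAddCommGroup E] [NormedSpace ℝ E]
    {Φ Φ' : E → Matrix (Fin 2) (Fin 2) 𝕂} (hΦ : ContDiff ℝ ∞ Φ) (hΦ' : ContDiff ℝ ∞ Φ') :
    ContDiff ℝ ∞ fun t => Φ t * Φ' t := by
  refine contDiff_of_entry323 fun i j => ?_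
  simp only [Matrix.mul_apply]
  refine ContDiff.sum fun k _ => ?_
  exact (contDiff_entry323 hΦ i k).mul (contDiff_entry323 hΦ' k j)

/-- `ψ` is smooth along all smooth families (the field `smooth` of the test functions). -/
def IsFamSmooth323 (ψ : GL (Fin 2) 𝕂 → ℂ) : Prop :=
  ∀ (m : ℕ) (h : (Fin m → ℝ) → GL (Fin 2) 𝕂),
    (∀ i j : Fin 2,
      ContDiff ℝ ∞ (fun t => ((h t : GL (Fin 2) 𝕂) : Matrix (Fin 2) (Fin 2) 𝕂) i j)) →
    ∀ g : GL (Fin 2) 𝕂, ContDiff ℝ ∞ (fun t => ψ (g * h t))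

/-- The extension by zero vanishes near the singular matrices. -/
theorem ext_eventually_zero323 {ψ : GL (Fin 2) 𝕂 → ℂ} (hc : HasCompactSupport ψ)
    {X₀ : Matrix (Fin 2) (Fin 2) 𝕂} (h0 : X₀.det = 0) :
    ∀ᶠ X in 𝓝 X₀, ext323 ψ X = 0 := by
  have hC : IsCompact ((fun g : GL (Fin 2) 𝕂 => (g : Matrix (Fin 2) (Fin 2) 𝕂)) '' tsupport ψ) :=
    hc.isCompact.image Units.continuous_val
  have hX₀ : X₀ ∉ (fun g : GL (Fin 2) 𝕂 => (g : Matrix (Fin 2) (Fin 2) 𝕂)) '' tsupport ψ := by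
    rintro ⟨g, -, rfl⟩
    exact det_coe_ne_zero323 g h0
  filter_upwards [hC.isClosed.isOpen_compl.mem_nhds hX₀] with X hX
  by_cases h : X.det ≠ 0
  · rw [ext_of_det323 ψ h]
    refine image_eq_zero_of_notMem_tsupport fun hmem => hX ?_
    exact ⟨_, hmem, rfl⟩
  · unfold ext323
    rw [dif_neg h]

/-- **THE EXTENSION BY ZERO IS SMOOTH.** -/
theorem contDiff_ext323 {ψ : GL (Fin 2) 𝕂 → ℂ} (hc : HasCompactSupport ψ)
    (hs : IsFamSmooth323 ψ) : ContDiff ℝ ∞ (ext323 ψ) := by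
  refine contDiff_iff_contDiffAt.2 fun X₀ => ?_
  by_cases h0 : X₀.det = 0
  · exact (contDiffAt_const (c := (0 : ℂ))).congr_of_eventuallyEq (ext_eventually_zero323 hc h0)
  -- a ball of invertible matrices
  have hopen : IsOpen {X : Matrix (Fin 2) (Fin 2) 𝕂 | X.det ≠ 0} :=
    isOpen_ne_fun continuous_det323 continuous_const
  obtain ⟨δ, hδ, hball⟩ := Metric.isOpen_iff.1 hopen X₀ h0
  let χ : ContDiffBump (0 : Matrix (Fin 2) (Fin 2) 𝕂) := ⟨δ / 2, δ, half_pos hδ, half_lt_self hδ⟩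
  let e : Matrix (Fin 2) (Fin 2) 𝕂 ≃L[ℝ]
      (Fin (Module.finrank ℝ (Matrix (Fin 2) (Fin 2) 𝕂)) → ℝ) :=
    (Module.finBasis ℝ (Matrix (Fin 2) (Fin 2) 𝕂)).equivFunL
  -- the family
  have hin : ∀ Z : Matrix (Fin 2) (Fin 2) 𝕂, X₀ + χ.toFun Z • Z ∈ Metric.ball X₀ δ := by
    intro Z
    rw [Metric.mem_ball, dist_eq_norm, add_sub_cancel_left, norm_smul, Real.norm_eq_abs,
      abs_of_nonneg χ.nonneg]
    by_cases hZ : ‖Z‖ < δ
    · calc χ.toFun Z * ‖Z‖ ≤ 1 * ‖Z‖ := mul_le_mul_of_nonneg_right χ.le_one (norm_nonneg _)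
        _ = ‖Z‖ := one_mul _
        _ < δ := hZ
    · have : χ.toFun Z = 0 := χ.zero_of_le_dist (by rw [dist_zero_right]; exact not_lt.1 hZ)
      rw [this, zero_mul]
      exact hδ
  let H : (Fin (Module.finrank ℝ (Matrix (Fin 2) (Fin 2) 𝕂)) → ℝ) → GL (Fin 2) 𝕂 := fun t =>
    Matrix.GeneralLinearGroup.mkOfDetNeZero (X₀ + χ.toFun (e.symm t) • e.symm t)
      (hball (hin (e.symm t)))
  have hHval : ∀ t, ((H t : GL (Fin 2) 𝕂) : Matrix (Fin 2) (Fin 2) 𝕂)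
      = X₀ + χ.toFun (e.symm t) • e.symm t := fun t => rfl
  have hΦ : ContDiff ℝ ∞ fun t : Fin (Module.finrank ℝ (Matrix (Fin 2) (Fin 2) 𝕂)) → ℝ =>
      X₀ + χ.toFun (e.symm t) • e.symm t := by
    have h1 : ContDiff ℝ ∞ fun t : Fin (Module.finrank ℝ (Matrix (Fin 2) (Fin 2) 𝕂)) → ℝ =>
        e.symm t := e.symm.contDiff
    have h2 : ContDiff ℝ ∞ fun t : Fin (Module.finrank ℝ (Matrix (Fin 2) (Fin 2) 𝕂)) → ℝ =>
        χ.toFun (e.symm t) := χ.contDiff.comp h1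
    exact contDiff_const.add (h2.smul h1)
  have hf₁ : ContDiff ℝ ∞ fun t => ψ (1 * H t) :=
    hs _ H (fun i j => by
      simp only [hHval]
      exact contDiff_entry323 hΦ i j) 1
  have hτ : ContDiff ℝ ∞ fun X : Matrix (Fin 2) (Fin 2) 𝕂 => e (X - X₀) :=
    e.contDiff.comp (contDiff_id.sub contDiff_const)
  have hcomp : ContDiff ℝ ∞ fun X : Matrix (Fin 2) (Fin 2) 𝕂 => ψ (1 * H (e (X - X₀))) :=
    hf₁.comp hτ
  refine hcomp.contDiffAt.congr_of_eventuallyEq ?_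
  filter_upwards [Metric.ball_mem_nhds X₀ (half_pos hδ)] with X hX
  have hX' : X - X₀ ∈ Metric.closedBall (0 : Matrix (Fin 2) (Fin 2) 𝕂) χ.rIn := by
    rw [Metric.mem_closedBall, dist_zero_right]
    rw [Metric.mem_ball, dist_eq_norm] at hX
    exact hX.le
  have hχ : χ.toFun (X - X₀) = 1 := χ.one_of_mem_closedBall hX'
  have hdet : X.det ≠ 0 := hball (Metric.ball_subset_ball (half_le_self hδ.le) hX)
  rw [ext_of_det323 ψ hdet, one_mul]
  congr 1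
  apply Units.ext
  rw [hHval, e.symm_apply_apply, hχ, one_smul]
  simp

/-! ## The convolution -/

section Conv

variable [MeasurableSpace (GL (Fin 2) 𝕂)] [BorelSpace (GL (Fin 2) 𝕂)]
  (μ : Measure (GL (Fin 2) 𝕂))

/-- The convolution `(φ ⋆ ψ)(z) = ∫ φ(y) ψ(y⁻¹ z) dμ(y)`. -/
def conv323 (φ ψ : GL (Fin 2) 𝕂 → ℂ) (z : GL (Fin 2) 𝕂) : ℂ :=
  ∫ y, φ y * ψ (y⁻¹ * z) ∂μ

/-- The convolution on the matrices. -/
def convExt323 (φ ψ : GL (Fin 2) 𝕂 → ℂ) (Z : Matrix (Fin 2) (Fin 2) 𝕂) : ℂ :=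
  ∫ y in tsupport φ, φ y * ext323 ψ (((y⁻¹ : GL (Fin 2) 𝕂) : Matrix (Fin 2) (Fin 2) 𝕂) * Z) ∂μ

theorem conv_eq_convExt323 (φ ψ : GL (Fin 2) 𝕂 → ℂ) (z : GL (Fin 2) 𝕂) :
    conv323 μ φ ψ z = convExt323 μ φ ψ (z : Matrix (Fin 2) (Fin 2) 𝕂) := by
  unfold conv323 convExt323
  rw [setIntegral_eq_integral_of_forall_compl_eq_zero]
  · refine integral_congr_ae (Filter.Eventually.of_forall fun y => ?_)
    simp only []
    rw [← Units.val_mul, ext_coe323]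
  · intro y hy
    rw [image_eq_zero_of_notMem_tsupport hy, zero_mul]

theorem contDiff_convExt323 [IsFiniteMeasureOnCompacts μ] {φ ψ : GL (Fin 2) 𝕂 → ℂ}
    (hφc : Continuous φ) (hφ : HasCompactSupport φ) (hψ : HasCompactSupport ψ)
    (hs : IsFamSmooth323 ψ) : ContDiff ℝ ∞ (convExt323 μ φ ψ) := by
  have hsc : Continuous fun y : GL (Fin 2) 𝕂 =>
      ((φ y, ((y⁻¹ : GL (Fin 2) 𝕂) : Matrix (Fin 2) (Fin 2) 𝕂)) :
        ℂ × Matrix (Fin 2) (Fin 2) 𝕂) :=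
    hφc.prodMk (Units.continuous_val.comp continuous_inv)
  have hΨ : ContDiff ℝ ∞ fun p : (ℂ × Matrix (Fin 2) (Fin 2) 𝕂) × Matrix (Fin 2) (Fin 2) 𝕂 =>
      p.1.1 * ext323 ψ (p.1.2 * p.2) := by
    refine (contDiff_fst.fst).mul ((contDiff_ext323 hψ hs).comp ?_)
    exact contDiff_matMul323 (contDiff_fst.snd) contDiff_snd
  exact contDiff_paramIntegral323 μ hφ.isCompact hsc hΨ

/-- **THE CONVOLUTION IS SMOOTH ALONG ALL SMOOTH FAMILIES.** -/
theorem smooth_conv323 [IsFiniteMeasureOnCompacts μ] {φ ψ : GL (Fin 2) 𝕂 → ℂ}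
    (hφc : Continuous φ) (hφ : HasCompactSupport φ) (hψ : HasCompactSupport ψ)
    (hs : IsFamSmooth323 ψ) : IsFamSmooth323 (conv323 μ φ ψ) := by
  intro m h hh g
  have e : (fun t => conv323 μ φ ψ (g * h t))
      = fun t => convExt323 μ φ ψ
        ((g : Matrix (Fin 2) (Fin 2) 𝕂) * ((h t : GL (Fin 2) 𝕂) : Matrix (Fin 2) (Fin 2) 𝕂)) := by
    funext t
    rw [conv_eq_convExt323, Units.val_mul]
  rw [e]
  exact (contDiff_convExt323 μ hφc hφ hψ hs).comp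
    (contDiff_matMul323 contDiff_const (contDiff_of_entry323 hh))

theorem continuous_conv323 [IsFiniteMeasureOnCompacts μ] {φ ψ : GL (Fin 2) 𝕂 → ℂ}
    (hφc : Continuous φ) (hφ : HasCompactSupport φ) (hψ : HasCompactSupport ψ)
    (hs : IsFamSmooth323 ψ) : Continuous (conv323 μ φ ψ) := by
  have e : conv323 μ φ ψ
      = fun z : GL (Fin 2) 𝕂 => convExt323 μ φ ψ (z : Matrix (Fin 2) (Fin 2) 𝕂) :=
    funext fun z => conv_eq_convExt323 μ φ ψ z
  rw [e]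
  exact (contDiff_convExt323 μ hφc hφ hψ hs).continuous.comp Units.continuous_val

/-- If the convolution does not vanish at `z`, the integrand does not vanish somewhere. -/
theorem exists_of_conv_ne_zero323 {φ ψ : GL (Fin 2) 𝕂 → ℂ} {z : GL (Fin 2) 𝕂}
    (h : conv323 μ φ ψ z ≠ 0) : ∃ y : GL (Fin 2) 𝕂, φ y ≠ 0 ∧ ψ (y⁻¹ * z) ≠ 0 := by
  by_contra hne
  apply h
  have e : (fun y : GL (Fin 2) 𝕂 => φ y * ψ (y⁻¹ * z)) = fun _ => 0 := by
    funext y
    by_cases hy : φ y = 0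
    · rw [hy, zero_mul]
    · have : ψ (y⁻¹ * z) = 0 := by
        by_contra h2
        exact hne ⟨y, hy, h2⟩
      rw [this, mul_zero]
  unfold conv323
  rw [e, integral_zero]

open Pointwise in
theorem hasCompactSupport_conv323 {φ ψ : GL (Fin 2) 𝕂 → ℂ}
    (hφ : HasCompactSupport φ) (hψ : HasCompactSupport ψ) :
    HasCompactSupport (conv323 μ φ ψ) := by
  refine HasCompactSupport.intro (hφ.isCompact.mul hψ.isCompact) fun z hz => ?_
  by_contra hne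
  obtain ⟨y, h1, h2⟩ := exists_of_conv_ne_zero323 μ hne
  exact hz (Set.mem_mul.2 ⟨y, subset_tsupport _ h1, y⁻¹ * z, subset_tsupport _ h2, by simp⟩)

theorem conv_left323 [μ.IsMulLeftInvariant] (φ ψ : GL (Fin 2) 𝕂 → ℂ) (k : GL (Fin 2) 𝕂) (c : ℂ)
    (hk : ∀ g : GL (Fin 2) 𝕂, φ (k * g) = c * φ g) (z : GL (Fin 2) 𝕂) :
    conv323 μ φ ψ (k * z) = c * conv323 μ φ ψ z := by
  unfold conv323
  rw [← integral_mul_left_eq_self (fun y : GL (Fin 2) 𝕂 => φ y * ψ (y⁻¹ * (k * z))) k,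
    ← integral_const_mul]
  refine integral_congr_ae (Filter.Eventually.of_forall fun y => ?_)
  simp only []
  have e : (k * y)⁻¹ * (k * z) = y⁻¹ * z := by group
  rw [e, hk, mul_assoc]

theorem conv_right323 (φ ψ : GL (Fin 2) 𝕂 → ℂ) (k : GL (Fin 2) 𝕂) (c : ℂ)
    (hk : ∀ g : GL (Fin 2) 𝕂, ψ (g * k) = c * ψ g) (z : GL (Fin 2) 𝕂) :
    conv323 μ φ ψ (z * k) = c * conv323 μ φ ψ z := by
  unfold conv323
  rw [← integral_const_mul]
  refine integral_congr_ae (Filter.Eventually.of_forall fun y => ?_)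
  simp only []
  rw [← mul_assoc, hk]
  ring

end Conv

end Fermat.Agent.LT.T6.H323

end
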