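import Mathlib
import Fermat.Agent.LT.T6.H680.ArchConvSpec
import Fermat.Agent.LT.T6.H323.Conv.Ext

/-!
# Row LT, tower T6, station T6.20x, LEAF X.4 `ConvTestCC680` (helper323), OFF-MAIN

    convTestCC323 : H680.ConvTestCC680        (VERBATIM, UNCONDITIONAL)

Test functions on `GL₂(ℂ)` are stable under convolution.  Smoothness: the extension by zero of a
test function to the matrices is `C^∞` (`contDiff_ext323`), smooth parametric integrals
(`contDiff_paramIntegral323`); the rest is invariance of the Haar measure.  MATHLIB + the Spec.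
No hole, nothing assumed.  ADDITIVE (suffix `323`).
-/

set_option autoImplicit false

open MeasureTheory
open scoped ContDiff Matrix

noncomputable section

namespace Fermat.Agent.LT.T6.H323

open Fermat.Agent.LT.T6 Fermat.Agent.LT.T6.H680

/-- **LEAF X.4 `ConvTestCC680`.** -/
theorem convTestCC323 : ConvTestCC680 := by
  intro μ' hμ' φ ψ hφ hψ
  letI : MeasurableSpace (GL (Fin 2) ℂ) := borel _
  haveI : BorelSpace (GL (Fin 2) ℂ) := ⟨rfl⟩
  haveI : μ'.IsHaarMeasure := hμ'
  have e : convC680 μ' φ ψ = conv323 μ' φ ψ := rfl
  rw [e]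
  have hs : IsFamSmooth323 ψ := hψ.smooth
  exact
    { cont := continuous_conv323 μ' hφ.cont hφ.supp hψ.supp hs
      supp := hasCompactSupport_conv323 μ' hφ.supp hψ.supp
      smooth := smooth_conv323 μ' hφ.cont hφ.supp hψ.supp hs
      left := fun k g hk => by
        have h1 := conv_left323 μ' φ ψ k 1 (fun g' => by rw [hφ.left k g' hk, one_mul]) g
        rw [h1, one_mul]
      right := fun k g hk => by
        have h1 := conv_right323 μ' φ ψ k 1 (fun g' => by rw [hψ.right k g' hk, one_mul]) g
        rw [h1, one_mul] }

end Fermat.Agent.LT.T6.H323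

end
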